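import Mathlib
import Fermat.Agent.H29.ESB.Interfaces
import Fermat.Agent.H23.PlaceBasic

/-!
# P-ES / ES-B, row ESB-3 : `RationalPlaceStatement`

A place `w` of `FK` at which some nonzero element of `bc Fk` has nonzero order is the extension
of a place of `Fk`: its valuation ring pulls back to a nontrivial valuation ring of `Fk`
containing the constants, which is the ring of a place by ESB-1; the orders agree by ESB-2b.
-/

set_option autoImplicit false
set_option maxSynthPendingDepth 3

open AlgebraicCurve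

namespace Fermat.Agent.H88

/-- **ESB-3** from ESB-1 and ESB-2b. -/
theorem rationalPlaceStatement (h1 : Fermat.Agent.H29.ValuationRingDVRStatement)
    (h2b : Fermat.Agent.H29.GaussFormulaStatement) :
    Fermat.Agent.H29.RationalPlaceStatement := by
  intro k K Fk FK _ _ _ _ _ _ _ _ _ _ E w hw
  obtain ⟨f, hf0, hf⟩ := hw
  -- the pulled back valuation ring
  set V0 : ValuationSubring Fk := w.toValuationSubring.comap E.bc with hV0
  have hmem : ∀ g : Fk, g ∈ V0 ↔ E.bc g ∈ w.toValuationSubring := fun g =>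
    ValuationSubring.mem_comap
  have hk : ∀ a : k, algebraMap k Fk a ∈ V0 := by
    intro a
    rw [hmem, E.bc_algebraMap]
    exact w.algebraMap_mem' (E.ι a)
  have hbc0 : E.bc f ≠ 0 := by
    intro h0
    exact hf0 ((map_eq_zero E.bc).1 h0)
  have hne : V0 ≠ ⊤ := by
    intro htop
    have hf1 : f ∈ V0 := by rw [htop]; exact ValuationSubring.mem_top f
    have hf2 : f⁻¹ ∈ V0 := by rw [htop]; exact ValuationSubring.mem_top _
    rw [hmem] at hf1 hf2
    have o1 : 0 ≤ w.ord (E.bc f) := Fermat.Agent.H23.ord_nonneg_of_mem w hf1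
    have o2 : 0 ≤ w.ord (E.bc f⁻¹) := Fermat.Agent.H23.ord_nonneg_of_mem w hf2
    rw [map_inv₀, Place.ord_inv] at o2
    exact hf (le_antisymm (by linarith) o1)
  obtain ⟨v, hv⟩ := h1 k Fk E.x E.x_transc E.x_fin V0 hk hne
  refine ⟨v, ?_⟩
  have hiff : ∀ g : Fk, E.bc g ∈ w.toValuationSubring ↔ g ∈ v.toValuationSubring := by
    intro g
    rw [hv, hmem]
  exact (h2b k K Fk FK E v w hiff).1

end Fermat.Agent.H88
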