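import Fermat.Agent.H22.ES.Interfaces

/-!
# P-ES row KL-IND (helper88): the KEY LEMMA for prime exponents implies the KEY LEMMA

`keyLemma_of_prime : GaussNormalFormStatement N → KeyLemmaPrimeStatement N ℓ →
  KeyLemmaStatement N ℓ` for a prime `ℓ`, by induction on the exponent `m`.
-/

set_option autoImplicit false
set_option maxSynthPendingDepth 3

noncomputable section

namespace Fermat.Agent.H88.KLInd

open ModularCurve AlgebraicCurve Fermat.Agent.H22.ES

/-- The KEY LEMMA `KL(N, ℓ)` restricted to prime exponents `r`. -/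
def KeyLemmaPrimeStatement (N ℓ : ℕ) : Prop :=
  ∀ (A : ValuationSubring (AlgebraicClosure ℚ)), A.LiesOverPrime ℓ →
    ∀ (r : ℕ), r.Prime → ¬ ℓ ∣ r →
      ∀ (a b : LaurentSeries A)
        (ha : coeffMap A.subtype a ∈ modularFunctionFieldBar N)
        (hb : coeffMap A.subtype b ∈ modularFunctionFieldBar N),
        coeffMap (IsLocalRing.residue A) a = coeffMap (IsLocalRing.residue A) b →
        coeffMap (IsLocalRing.residue A) a ≠ 0 →
        (∀ P : Place (AlgebraicClosure ℚ) (modularFunctionFieldBar N),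
          (r : ℤ) ∣ P.ord (⟨coeffMap A.subtype a, ha⟩ : modularFunctionFieldBar N)
            - P.ord (⟨coeffMap A.subtype b, hb⟩ : modularFunctionFieldBar N)) →
        ∃ w : modularFunctionFieldBar N,
          w ^ r * (⟨coeffMap A.subtype b, hb⟩ : modularFunctionFieldBar N)
            = (⟨coeffMap A.subtype a, ha⟩ : modularFunctionFieldBar N)

/-! ### Generalities on `coeffMap` -/

theorem coeffMap_injective {R S : Type*} [CommRing R] [CommRing S] (f : R →+* S)
    (hf : Function.Injective f) : Function.Injective (coeffMap f) := by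
  intro x y hxy
  ext k
  apply hf
  have := congrArg (fun z => HahnSeries.coeff z k) hxy
  simpa using this

theorem coeffMap_C {R S : Type*} [CommRing R] [CommRing S] (f : R →+* S) (c : R) :
    coeffMap f (HahnSeries.C c : LaurentSeries R) = HahnSeries.C (f c) := by
  rw [HahnSeries.C_apply, HahnSeries.C_apply]
  exact coeffMap_single f 0 c

theorem coeffMap_subtype_C (A : ValuationSubring (AlgebraicClosure ℚ)) (c : A) :
    coeffMap A.subtype (HahnSeries.C c : LaurentSeries A)
      = algebraMap (AlgebraicClosure ℚ) (LaurentSeries (AlgebraicClosure ℚ)) (c : AlgebraicClosure ℚ) := by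
  rw [coeffMap_C, algebraMap_laurentSeries_eq_single, HahnSeries.C_apply]
  rfl

/-- the residue map on Laurent series -/
abbrev redL (A : ValuationSubring (AlgebraicClosure ℚ)) :
    LaurentSeries A →+* LaurentSeries (IsLocalRing.ResidueField A) :=
  coeffMap (IsLocalRing.residue A)

/-- the inclusion on Laurent series -/
abbrev incL (A : ValuationSubring (AlgebraicClosure ℚ)) :
    LaurentSeries A →+* LaurentSeries (AlgebraicClosure ℚ) :=
  coeffMap A.subtype

theorem incL_injective (A : ValuationSubring (AlgebraicClosure ℚ)) :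
    Function.Injective (incL A) :=
  coeffMap_injective _ Subtype.val_injective

theorem ne_zero_of_redL_ne_zero (A : ValuationSubring (AlgebraicClosure ℚ)) {x : LaurentSeries A}
    (hx : redL A x ≠ 0) : incL A x ≠ 0 := by
  intro h
  apply hx
  have : x = 0 := incL_injective A (by rw [h, map_zero])
  rw [this, map_zero]

/-! ### Gauss norm comparison -/

/-- If `c • x = y` with `x y ∈ A((q))` of nonzero reduction and `c ∈ A`, then `c ∈ Aˣ`. -/
theorem isUnit_of_mul_eq_aux (A : ValuationSubring (AlgebraicClosure ℚ)) (c : A)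
    (x y : LaurentSeries A) (hy : redL A y ≠ 0)
    (h : algebraMap (AlgebraicClosure ℚ) (LaurentSeries (AlgebraicClosure ℚ)) (c : AlgebraicClosure ℚ)
        * incL A x = incL A y) : IsUnit c := by
  rw [← IsLocalRing.residue_ne_zero_iff_isUnit]
  intro hc
  apply hy
  have h1 : HahnSeries.C c * x = y := by
    apply incL_injective A
    rw [map_mul, ← h]
    congr 1
    exact coeffMap_subtype_C A c
  rw [← h1, map_mul]
  have : redL A (HahnSeries.C c) = 0 := by
    show coeffMap (IsLocalRing.residue A) (HahnSeries.C c) = 0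
    rw [coeffMap_C, hc, map_zero]
  rw [this, zero_mul]

/-- **Gauss norm comparison**: if `c • x = y` with `x y ∈ A((q))` of nonzero reduction,
then `c` is a unit of `A`. -/
theorem exists_unit_of_mul_eq (A : ValuationSubring (AlgebraicClosure ℚ)) (c : AlgebraicClosure ℚ)
    (x y : LaurentSeries A) (hx : redL A x ≠ 0) (hy : redL A y ≠ 0)
    (h : algebraMap (AlgebraicClosure ℚ) (LaurentSeries (AlgebraicClosure ℚ)) c
        * incL A x = incL A y) : ∃ u : A, IsUnit u ∧ (u : AlgebraicClosure ℚ) = c := by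
  have hc0 : c ≠ 0 := by
    rintro rfl
    rw [map_zero, zero_mul] at h
    exact ne_zero_of_redL_ne_zero A hy h.symm
  rcases A.mem_or_inv_mem c with hc | hc
  · exact ⟨⟨c, hc⟩, isUnit_of_mul_eq_aux A ⟨c, hc⟩ x y hy h, rfl⟩
  · have h' : algebraMap (AlgebraicClosure ℚ) (LaurentSeries (AlgebraicClosure ℚ))
        ((⟨c⁻¹, hc⟩ : A) : AlgebraicClosure ℚ) * incL A y = incL A x := by
      rw [← h, ← mul_assoc, ← map_mul]
      show algebraMap _ _ (c⁻¹ * c) * _ = _
      rw [inv_mul_cancel₀ hc0, map_one, one_mul]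
    have hu : IsUnit (⟨c⁻¹, hc⟩ : A) := isUnit_of_mul_eq_aux A ⟨c⁻¹, hc⟩ y x hx h'
    obtain ⟨v, hv⟩ := hu
    refine ⟨((v⁻¹ : Aˣ) : A), Units.isUnit _, ?_⟩
    have h1 : ((v : A) : AlgebraicClosure ℚ) * (((v⁻¹ : Aˣ) : A) : AlgebraicClosure ℚ) = 1 := by
      rw [← MulMemClass.coe_mul, Units.mul_inv]
      rfl
    rw [hv] at h1
    have h2 : c⁻¹ * (((v⁻¹ : Aˣ) : A) : AlgebraicClosure ℚ) = 1 := h1
    field_simp at h2
    exact h2

/-- If `c ^ r` is a unit of `A` (with `r ≠ 0`) then so is `c`. -/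
theorem exists_unit_of_pow (A : ValuationSubring (AlgebraicClosure ℚ)) (c : AlgebraicClosure ℚ)
    (r : ℕ) (hr : r ≠ 0) (u : A) (hu : IsUnit u) (huc : (u : AlgebraicClosure ℚ) = c ^ r) :
    ∃ v : A, IsUnit v ∧ (v : AlgebraicClosure ℚ) = c := by
  obtain ⟨s, rfl⟩ : ∃ s, r = s + 1 := Nat.exists_eq_succ_of_ne_zero hr
  rcases A.mem_or_inv_mem c with hc | hc
  · refine ⟨⟨c, hc⟩, ?_, rfl⟩
    have : (⟨c, hc⟩ : A) * (⟨c, hc⟩ : A) ^ s = u := by
      apply Subtype.ext
      rw [huc, pow_succ']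
      rfl
    exact isUnit_of_mul_isUnit_left (this ▸ hu)
  · have hc0 : c ≠ 0 := by
      rintro rfl
      rw [zero_pow hr] at huc
      have : u = 0 := Subtype.ext huc
      rw [this] at hu
      exact not_isUnit_zero hu
    have hu1 : IsUnit (⟨c⁻¹, hc⟩ : A) := by
      obtain ⟨w, hw⟩ := hu
      have : (⟨c⁻¹, hc⟩ : A) * ((⟨c⁻¹, hc⟩ : A) ^ s * u) = 1 := by
        apply Subtype.ext
        show c⁻¹ * (c⁻¹ ^ s * (u : AlgebraicClosure ℚ)) = 1
        rw [huc, ← mul_assoc, ← pow_succ', inv_pow, inv_mul_cancel₀ (pow_ne_zero _ hc0)]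
      exact isUnit_iff_exists_inv.mpr ⟨_, this⟩
    obtain ⟨v, hv⟩ := hu1
    refine ⟨((v⁻¹ : Aˣ) : A), Units.isUnit _, ?_⟩
    have h1 : ((v : A) : AlgebraicClosure ℚ) * (((v⁻¹ : Aˣ) : A) : AlgebraicClosure ℚ) = 1 := by
      rw [← MulMemClass.coe_mul, Units.mul_inv]
      rfl
    rw [hv] at h1
    have h2 : c⁻¹ * (((v⁻¹ : Aˣ) : A) : AlgebraicClosure ℚ) = 1 := h1
    field_simp at h2
    exact h2

/-! ### Roots of unity of order prime to the residue characteristic -/

/-- a prime `r ≠ ℓ` is nonzero in the residue field of `A` over `ℓ` -/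
theorem residue_natCast_ne_zero (A : ValuationSubring (AlgebraicClosure ℚ)) (ℓ : ℕ)
    (hℓ : ℓ.Prime) (hA : A.LiesOverPrime ℓ) (r : ℕ) (hr : r.Prime) (hrℓ : ¬ ℓ ∣ r) :
    IsLocalRing.residue A (r : A) ≠ 0 := by
  intro h0
  have hℓ0 : IsLocalRing.residue A (ℓ : A) = 0 := by
    rw [IsLocalRing.residue_eq_zero_iff]
    obtain ⟨hmem, hmax⟩ := ValuationSubring.mem_nonunits_iff_exists_mem_maximalIdeal.mp hA
    have : (⟨(ℓ : AlgebraicClosure ℚ), hmem⟩ : A) = (ℓ : A) := Subtype.ext (by simp)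
    rwa [this] at hmax
  have hcop : Nat.Coprime r ℓ := by
    rw [Nat.coprime_primes hr hℓ]
    rintro rfl
    exact hrℓ dvd_rfl
  have h1 : ((r : ℤ) : A) * ((Nat.gcdA r ℓ : ℤ) : A) + ((ℓ : ℤ) : A) * ((Nat.gcdB r ℓ : ℤ) : A)
      = 1 := by
    have := Nat.gcd_eq_gcd_ab r ℓ
    rw [hcop.gcd_eq_one] at this
    have h2 := congrArg (fun z : ℤ => (z : A)) this
    simp only [Nat.cast_one, Int.cast_one, Int.cast_add, Int.cast_mul] at h2
    exact h2.symm
  have h3 := congrArg (IsLocalRing.residue A) h1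
  simp only [map_add, map_mul, Int.cast_natCast, h0, hℓ0, zero_mul, add_zero, map_one] at h3
  exact zero_ne_one h3

/-- every `r`-th root of unity of `k((q))` is the reduction of an `r`-th root of unity of `A` -/
theorem exists_root_of_unity_lift (A : ValuationSubring (AlgebraicClosure ℚ)) (ℓ : ℕ)
    (hℓ : ℓ.Prime) (hA : A.LiesOverPrime ℓ) (r : ℕ) (hr : r.Prime) (hrℓ : ¬ ℓ ∣ r)
    (z : LaurentSeries (IsLocalRing.ResidueField A)) (hz : z ^ r = 1) :
    ∃ ζ : A, ζ ^ r = 1 ∧ z = HahnSeries.C (IsLocalRing.residue A ζ) := by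
  have : Fact r.Prime := ⟨hr⟩
  have : NeZero r := ⟨hr.ne_zero⟩
  have : NeZero (r : AlgebraicClosure ℚ) := ⟨Nat.cast_ne_zero.mpr hr.ne_zero⟩
  obtain ⟨ζ0, hζ0⟩ := HasEnoughRootsOfUnity.exists_primitiveRoot (AlgebraicClosure ℚ) r
  have hζ0A : ζ0 ∈ A := by
    rcases A.mem_or_inv_mem ζ0 with h | h
    · exact h
    · have : ζ0 = ζ0⁻¹ ^ (r - 1) := by
        have h1 : ζ0 * ζ0 ^ (r - 1) = 1 := by
          rw [← pow_succ', Nat.sub_add_cancel hr.one_le, hζ0.pow_eq_one]
        rw [inv_pow]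
        exact eq_inv_of_mul_eq_one_left h1
      rw [this]
      exact pow_mem h _
  set ζ : A := ⟨ζ0, hζ0A⟩ with hζ
  have hζr : ζ ^ r = 1 := Subtype.ext (by simpa using hζ0.pow_eq_one)
  have hres : IsLocalRing.residue A ζ ≠ 1 := by
    intro h1
    have hsum : ∑ i ∈ Finset.range r, ζ ^ i = 0 := by
      apply Subtype.ext
      have := hζ0.geom_sum_eq_zero hr.one_lt
      simpa using this
    have := congrArg (IsLocalRing.residue A) hsum
    simp only [map_sum, map_pow, h1, one_pow, Finset.sum_const, Finset.card_range, map_zero,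
      nsmul_eq_mul, mul_one] at this
    apply residue_natCast_ne_zero A ℓ hℓ hA r hr hrℓ
    rw [map_natCast]
    exact this
  set ζb : LaurentSeries (IsLocalRing.ResidueField A) := HahnSeries.C (IsLocalRing.residue A ζ)
    with hζb
  have hζbr : ζb ^ r = 1 := by
    rw [hζb, ← map_pow, ← map_pow, hζr, map_one, map_one]
  have hζb1 : ζb ≠ 1 := by
    intro h
    apply hres
    apply HahnSeries.C_injective (Γ := ℤ)
    rw [← hζb, h, map_one]
  have hprim : IsPrimitiveRoot ζb r := by
    have := IsPrimitiveRoot.orderOf ζb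
    rwa [orderOf_eq_prime hζbr hζb1] at this
  obtain ⟨i, -, hi⟩ := hprim.eq_pow_of_pow_eq_one hz
  refine ⟨ζ ^ i, ?_, ?_⟩
  · rw [← pow_mul, mul_comm, pow_mul, hζr, one_pow]
  · rw [← hi, hζb, map_pow, map_pow]

/-! ### The induction -/

theorem ord_pow_nat {K F : Type*} [Field K] [Field F] [Algebra K F] (P : Place K F) (f : F)
    (n : ℕ) : P.ord (f ^ n) = n * P.ord f := by
  have := P.ord_zpow f (n : ℤ)
  rwa [zpow_natCast] at this

/-- **KL-IND.**  The KEY LEMMA for prime exponents implies the KEY LEMMA (for `ℓ` prime),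
given the Gauss normal form. -/
theorem keyLemma_of_prime (N ℓ : ℕ) (hℓ : ℓ.Prime) (hG : GaussNormalFormStatement N)
    (hprime : KeyLemmaPrimeStatement N ℓ) : KeyLemmaStatement N ℓ := by
  intro A hA m
  induction m using Nat.strong_induction_on with
  | _ m ih =>
  intro hm hℓm a b ha hb hred hne hord
  have hneb : redL A b ≠ 0 := hred ▸ hne
  have ha0 : incL A a ≠ 0 := ne_zero_of_redL_ne_zero A hne
  have hb0 : incL A b ≠ 0 := ne_zero_of_redL_ne_zero A hneb
  have hb0' : (⟨coeffMap A.subtype b, hb⟩ : modularFunctionFieldBar N) ≠ 0 := by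
    intro h
    exact hb0 (congrArg Subtype.val h)
  have ha0' : (⟨coeffMap A.subtype a, ha⟩ : modularFunctionFieldBar N) ≠ 0 := by
    intro h
    exact ha0 (congrArg Subtype.val h)
  rcases eq_or_ne m 1 with rfl | hm1
  · refine ⟨(⟨coeffMap A.subtype a, ha⟩ : modularFunctionFieldBar N)
      / (⟨coeffMap A.subtype b, hb⟩ : modularFunctionFieldBar N), ?_⟩
    rw [pow_one, div_mul_cancel₀ _ hb0']
  obtain ⟨r, hr, hrm⟩ := Nat.exists_prime_and_dvd hm1
  obtain ⟨m', rfl⟩ := hrm
  have hm'pos : 0 < m' := Nat.pos_of_ne_zero (by rintro rfl; simp at hm)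
  have hm'lt : m' < r * m' := by
    have := hr.one_lt
    nlinarith
  have hℓr : ¬ ℓ ∣ r := fun h => hℓm (dvd_mul_of_dvd_left h _)
  have hℓm' : ¬ ℓ ∣ m' := fun h => hℓm (dvd_mul_of_dvd_right h _)
  -- the prime step
  obtain ⟨w1, hw1⟩ := hprime A hA r hr hℓr a b ha hb hred hne
    (fun P => dvd_trans (by exact_mod_cast dvd_mul_right r m') (hord P))
  have hw10 : w1 ≠ 0 := by
    rintro rfl
    rw [zero_pow hr.ne_zero, zero_mul] at hw1
    exact ha0' hw1.symm
  -- Gauss normal form of `w1`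
  obtain ⟨c, a1, b1, ha1, hb1, hc0, hra1, hrb1, hgnf⟩ := hG A ℓ hℓ hA w1 hw10
  have hE1 : (w1 : LaurentSeries (AlgebraicClosure ℚ)) ^ r * incL A b = incL A a := by
    have := congrArg Subtype.val hw1
    simpa using this
  have hE2 : (w1 : LaurentSeries (AlgebraicClosure ℚ)) * incL A b1
      = algebraMap (AlgebraicClosure ℚ) (LaurentSeries (AlgebraicClosure ℚ)) c * incL A a1 := by
    have := congrArg Subtype.val hgnf
    simpa using this
  have hE3 : algebraMap (AlgebraicClosure ℚ) (LaurentSeries (AlgebraicClosure ℚ)) (c ^ r)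
      * incL A (a1 ^ r * b) = incL A (a * b1 ^ r) := by
    rw [map_pow, map_mul, map_mul, map_pow, map_pow, ← hE1, ← mul_assoc, ← mul_pow, ← hE2]
    ring
  have hx : redL A (a1 ^ r * b) ≠ 0 := by
    rw [map_mul, map_pow]
    exact mul_ne_zero (pow_ne_zero _ hra1) hneb
  have hy : redL A (a * b1 ^ r) ≠ 0 := by
    rw [map_mul, map_pow]
    exact mul_ne_zero hne (pow_ne_zero _ hrb1)
  obtain ⟨u, hu, huc⟩ := exists_unit_of_mul_eq A (c ^ r) _ _ hx hy hE3
  obtain ⟨v, hv, hvc⟩ := exists_unit_of_pow A c r hr.ne_zero u hu huc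
  -- the identity over `A`
  have hE4 : HahnSeries.C v ^ r * (a1 ^ r * b) = a * b1 ^ r := by
    apply incL_injective A
    rw [← hE3, map_mul, map_pow (incL A) (HahnSeries.C v)]
    congr 1
    rw [map_pow]
    congr 1
    show coeffMap A.subtype (HahnSeries.C v) = _
    rw [coeffMap_subtype_C, hvc]
  -- reduce
  have hE5 : (HahnSeries.C (IsLocalRing.residue A v) * redL A a1) ^ r = redL A b1 ^ r := by
    have := congrArg (redL A) hE4
    rw [map_mul, map_mul, map_mul, map_pow, map_pow, map_pow, ← hred] at this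
    have h2 : redL A (HahnSeries.C v) = HahnSeries.C (IsLocalRing.residue A v) := coeffMap_C _ _
    rw [h2] at this
    have h3 : redL A a * ((HahnSeries.C (IsLocalRing.residue A v) * redL A a1) ^ r)
        = redL A a * redL A b1 ^ r := by
      rw [← this]
      ring
    exact mul_left_cancel₀ hne h3
  obtain ⟨ζ, hζr, hζ⟩ := exists_root_of_unity_lift A ℓ hℓ hA r hr hℓr
    (HahnSeries.C (IsLocalRing.residue A v) * redL A a1 / redL A b1)
    (by rw [div_pow, hE5, div_self (pow_ne_zero _ hrb1)])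
  have hE6 : HahnSeries.C (IsLocalRing.residue A v) * redL A a1
      = HahnSeries.C (IsLocalRing.residue A ζ) * redL A b1 := by
    rw [← hζ, div_mul_cancel₀ _ hrb1]
  -- the corrected numerator
  set t : A := ζ ^ (r - 1) * v with ht
  have hζr' : ζ ^ (r - 1) * ζ = 1 := by
    rw [← pow_succ, Nat.sub_add_cancel hr.one_le, hζr]
  set a1' : LaurentSeries A := HahnSeries.C t * a1 with ha1'
  have hreda1' : redL A a1' = redL A b1 := by
    rw [ha1', map_mul]
    have h2 : redL A (HahnSeries.C t) = HahnSeries.C (IsLocalRing.residue A t) := coeffMap_C _ _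
    rw [h2, ht, map_mul, map_mul, mul_assoc, hE6, ← mul_assoc, ← map_mul, ← map_mul, hζr',
      map_one, map_one, one_mul]
  have hinca1' : incL A a1' = algebraMap (AlgebraicClosure ℚ) (LaurentSeries (AlgebraicClosure ℚ))
      ((t : A) : AlgebraicClosure ℚ) * incL A a1 := by
    rw [ha1', map_mul]
    congr 1
    exact coeffMap_subtype_C A t
  have ha1'mem : coeffMap A.subtype a1' ∈ modularFunctionFieldBar N := by
    show incL A a1' ∈ modularFunctionFieldBar N
    rw [hinca1']
    exact mul_mem ((modularFunctionFieldBar N).algebraMap_mem _) ha1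
  have hb10 : incL A b1 ≠ 0 := ne_zero_of_redL_ne_zero A hrb1
  have hb10' : (⟨coeffMap A.subtype b1, hb1⟩ : modularFunctionFieldBar N) ≠ 0 := by
    intro h
    exact hb10 (congrArg Subtype.val h)
  -- the corrected root
  set w1' : modularFunctionFieldBar N :=
    algebraMap (AlgebraicClosure ℚ) (modularFunctionFieldBar N)
      (((ζ ^ (r - 1) : A)) : AlgebraicClosure ℚ) * w1 with hw1'
  have hw1'0 : w1' ≠ 0 := by
    rw [hw1']
    refine mul_ne_zero ?_ hw10
    rw [Ne, map_eq_zero]
    intro h0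
    have h1 := congrArg Subtype.val hζr'
    rw [MulMemClass.coe_mul, h0, zero_mul] at h1
    exact zero_ne_one h1
  have hw1'r : w1' ^ r = w1 ^ r := by
    rw [hw1', mul_pow, ← map_pow]
    have : (((ζ ^ (r - 1) : A)) : AlgebraicClosure ℚ) ^ r = 1 := by
      have h1 : (ζ ^ (r - 1)) ^ r = 1 := by
        rw [← pow_mul, mul_comm, pow_mul, hζr, one_pow]
      have h2 := congrArg Subtype.val h1
      simpa using h2
    rw [this, map_one, one_mul]
  have hw1'b : w1' * (⟨coeffMap A.subtype b1, hb1⟩ : modularFunctionFieldBar N)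
      = (⟨coeffMap A.subtype a1', ha1'mem⟩ : modularFunctionFieldBar N) := by
    apply Subtype.ext
    show ((w1' : modularFunctionFieldBar N) : LaurentSeries (AlgebraicClosure ℚ)) * incL A b1
      = incL A a1'
    rw [hinca1', hw1']
    show (algebraMap (AlgebraicClosure ℚ) (LaurentSeries (AlgebraicClosure ℚ))
        (((ζ ^ (r - 1) : A)) : AlgebraicClosure ℚ) * (w1 : LaurentSeries (AlgebraicClosure ℚ)))
        * incL A b1 = _
    rw [mul_assoc, hE2, ← mul_assoc, ← map_mul, ht, MulMemClass.coe_mul, hvc]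
  -- divisibility of orders
  have hord' : ∀ P : Place (AlgebraicClosure ℚ) (modularFunctionFieldBar N),
      (m' : ℤ) ∣ P.ord (⟨coeffMap A.subtype a1', ha1'mem⟩ : modularFunctionFieldBar N)
        - P.ord (⟨coeffMap A.subtype b1, hb1⟩ : modularFunctionFieldBar N) := by
    intro P
    have h1 : P.ord (⟨coeffMap A.subtype a, ha⟩ : modularFunctionFieldBar N)
        = r * P.ord w1' + P.ord (⟨coeffMap A.subtype b, hb⟩ : modularFunctionFieldBar N) := by
      rw [← hw1, ← hw1'r, P.ord_mul (pow_ne_zero _ hw1'0) hb0', ord_pow_nat]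
    have h2 : P.ord (⟨coeffMap A.subtype a1', ha1'mem⟩ : modularFunctionFieldBar N)
        = P.ord w1' + P.ord (⟨coeffMap A.subtype b1, hb1⟩ : modularFunctionFieldBar N) := by
      rw [← hw1'b, P.ord_mul hw1'0 hb10']
    have h3 := hord P
    rw [h1, h2] at *
    have h4 : ((r : ℤ) * (m' : ℤ)) ∣ (r : ℤ) * P.ord w1' := by
      have : (r : ℤ) * P.ord w1'
          + P.ord (⟨coeffMap A.subtype b, hb⟩ : modularFunctionFieldBar N)
          - P.ord (⟨coeffMap A.subtype b, hb⟩ : modularFunctionFieldBar N)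
          = (r : ℤ) * P.ord w1' := by ring
      rw [this] at h3
      exact_mod_cast h3
    have h5 : (m' : ℤ) ∣ P.ord w1' :=
      (mul_dvd_mul_iff_left (by exact_mod_cast hr.ne_zero : (r : ℤ) ≠ 0)).mp h4
    simpa using h5
  -- induction hypothesis
  obtain ⟨w', hw'⟩ := ih m' hm'lt hm'pos hℓm' a1' b1 ha1'mem hb1 hreda1'
    (by rw [show coeffMap (IsLocalRing.residue A) a1' = redL A a1' from rfl, hreda1']; exact hrb1)
    hord'
  have hw'eq : w' ^ m' = w1' := by
    apply mul_right_cancel₀ hb10'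
    rw [hw', hw1'b]
  refine ⟨w', ?_⟩
  rw [mul_comm r m', pow_mul, hw'eq, hw1'r, hw1]

end Fermat.Agent.H88.KLInd
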