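import Mathlib
import Fermat.Agent.H28.ES.Interface
import Fermat.Agent.H88.QuadRep

/-!
# P-ES / ES-G1 : `QuadraticRepStatement` from `Fermat.Agent.H88.exists_twoDim_of_quadratic`

The extra hypothesis of the interface (existence of an involution `c` with `ε c = -1` in
characteristic `≠ 2`) is not needed.
-/

set_option autoImplicit false
set_option maxSynthPendingDepth 3

open Polynomial

namespace Fermat.Agent.H88

/-- **ES-G1**. -/
theorem quadraticRepStatement : Fermat.Agent.H28.QuadraticRepStatement := by
  intro F _ _ G _ W _ _ _ _ ρ ε t h _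
  obtain ⟨ρ', h1, h2⟩ := exists_twoDim_of_quadratic ρ t ε h
  exact ⟨Fin 2 → F, inferInstance, inferInstance, inferInstance, ρ',
    by simp, h1, h2⟩

end Fermat.Agent.H88
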