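import Mathlib
import Fermat.Agent.H28.ES.Interface2

/-!
# P-ES / ES-G2 : residue fields of `ℤ̄`

* the kernel of a ring homomorphism from `ℤ̄ = integralClosure ℤ ℂ` to a field of characteristic
  `p` is a maximal ideal;
* the quotient of `ℤ̄` by a maximal ideal is algebraically closed.
-/

set_option autoImplicit false
set_option maxSynthPendingDepth 3

open Polynomial

namespace Fermat.Agent.H88

/-- `ℤ̄`. -/
local notation "Zb" => integralClosure ℤ ℂ

/-- The kernel of a ring homomorphism from `ℤ̄` to a field of characteristic `p` is maximal. -/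
theorem ker_isMaximal_of_charP (p : ℕ) (hp : p.Prime) (k : Type*) [Field k] [CharP k p]
    (φ : Zb →+* k) : (RingHom.ker φ).IsMaximal := by
  have : (RingHom.ker φ).IsPrime := RingHom.ker_isPrime φ
  apply Ideal.isMaximal_of_isIntegral_of_isMaximal_comap (R := ℤ) (RingHom.ker φ)
  have hcomap : (RingHom.ker φ).comap (algebraMap ℤ Zb) = Ideal.span {(p : ℤ)} := by
    ext n
    rw [Ideal.mem_comap, RingHom.mem_ker, Ideal.mem_span_singleton, eq_intCast, map_intCast]
    exact CharP.intCast_eq_zero_iff k p n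
  rw [hcomap]
  exact PrincipalIdealRing.isMaximal_of_irreducible
    (Nat.prime_iff_prime_int.1 hp).irreducible

/-- The quotient of `ℤ̄` by a maximal ideal is algebraically closed. -/
theorem quot_isAlgClosed (𝔪 : Ideal Zb) (h𝔪 : 𝔪.IsMaximal) :
    letI := Ideal.Quotient.field 𝔪
    IsAlgClosed (Zb ⧸ 𝔪) := by
  let _ := Ideal.Quotient.field 𝔪
  apply IsAlgClosed.of_exists_root
  intro f hf hirr
  -- lift `f` to a monic polynomial over `ℤ̄`
  have hlifts : f ∈ Polynomial.lifts (Ideal.Quotient.mk 𝔪) := by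
    rw [Polynomial.lifts_iff_coeff_lifts]
    intro n
    exact Ideal.Quotient.mk_surjective _
  obtain ⟨P, hPf, hPn, hPm⟩ := Polynomial.lifts_and_natDegree_eq_and_monic hlifts hf
  -- a complex root of the lift
  have hdeg : (P.map (algebraMap Zb ℂ)).degree ≠ 0 := by
    apply Polynomial.degree_ne_of_natDegree_ne
    rw [Polynomial.Monic.natDegree_map hPm, hPn]
    exact (Polynomial.natDegree_pos_iff_degree_pos.2
      (Polynomial.degree_pos_of_irreducible hirr)).ne'
  obtain ⟨z, hz⟩ := IsAlgClosed.exists_root (P.map (algebraMap Zb ℂ)) hdeg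
  -- `z` is integral over `ℤ̄`, hence over `ℤ`
  have hzint : IsIntegral Zb z := ⟨P, hPm, by
    rw [← Polynomial.eval_map]; exact hz⟩
  have hzint' : IsIntegral ℤ z := isIntegral_trans z hzint
  let z' : Zb := ⟨z, hzint'⟩
  refine ⟨Ideal.Quotient.mk 𝔪 z', ?_⟩
  have hev : P.eval z' = 0 := by
    have hinj : Function.Injective (algebraMap Zb ℂ) := Subtype.val_injective
    apply hinj
    rw [map_zero, ← Polynomial.eval₂_at_apply, Polynomial.eval₂_eq_eval_map]
    exact hz
  rw [← hPf, Polynomial.eval_map, Polynomial.eval₂_at_apply, hev, map_zero]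

/-- **ES-G2**. -/
theorem quotAlgClosedStatement : Fermat.Agent.H28.QuotAlgClosedStatement :=
  ⟨fun p hp k _ _ φ => ker_isMaximal_of_charP p hp k φ,
   fun 𝔪 h𝔪 => quot_isAlgClosed 𝔪 h𝔪⟩

end Fermat.Agent.H88
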